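/-
S56, wall W3c, seat SO-T, part T1 (helper2): normal form of the strict-ordinary tangent cocycles.

`so_tangent_normal_form_pf` has the statement of `so_tangent_normal_form` (`SO/Tangent.lean`).

Proof (elementwise, with the components `redFst`, `redSnd` of helper87's `Tangent/Red.lean`).
Let `R σ = defEnd ρbar (c σ) σ` on `M = k[ε] ⊗ V`, and `L ⊆ M` the pull-back of the line of `ρ`.
`σ₀` in inertia with cyclotomic exponent `a₀ ≢ 1`:  `ℓ' = R σ₀ (1 ⊗ w 0) - 1 ⊗ w 0 ∈ L` has constant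
part `(a₀ - 1) w 0 ≠ 0`, so it generates `L`; put `a = (a₀ - 1)⁻¹ redSnd ℓ'`.  Then
  (*)  `y ∈ L ⇒ redFst y = s₀ w 0,  redSnd y = s₀ a + s₁ w 0`.
`m₁ : w 0 ↦ a, w 1 ↦ 0`, `m = m₁ - (tr m₁ / 2)`, `c' σ = c σ + (σ m - m)`,
`n = c' σ ρbar σ = c σ ρbar σ + ρbar σ m₁ - m₁ ρbar σ`.  For `σ` in the decomposition group, with
`x, z` of the strict-ordinary datum:  `n (w 0) = x₁ w 0`, `n (w 1) = z₁ w 1 + s₁ w 0`, and the
cyclotomic relation `x = a_σ z` gives that the diagonal entries of `c' σ` agree; its trace is `0`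
and `p ≠ 2`, so both vanish.
-/
import Fermat.Agent.S56.W3.SO.Tangent.Red
import Fermat.Agent.Lib.MultRed.InertiaCyclo

set_option autoImplicit false

namespace Fermat.Agent.S56.SO

open Fermat.Agent.F4 ExtCitation
open scoped TensorProduct

section LinAlg

variable {k : Type} [Field k] {V : Type} [AddCommGroup V] [Module k V]

theorem soT1_trace_eq (w : Module.Basis (Fin 2) k V) (f : Module.End k V) :
    LinearMap.trace k V f = w.repr (f (w 0)) 0 + w.repr (f (w 1)) 1 := by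
  rw [LinearMap.trace_eq_matrix_trace k w f, Matrix.trace_fin_two, LinearMap.toMatrix_apply,
    LinearMap.toMatrix_apply]

/-- The final linear algebra: a trace-zero `c'` with `c' r` triangular and "cyclotomic" diagonal,
for a triangular invertible `r`, lies in `W0`. -/
theorem soT1_mem_W0 (w : Module.Basis (Fin 2) k V) (h2 : (2 : k) ≠ 0)
    (c' r : Module.End k V) (x₀ x₁ z₀ z₁ s₀ s₁ aσ : k)
    (hx0 : x₀ ≠ 0)
    (hr0 : r (w 0) = x₀ • w 0) (hr1 : r (w 1) = s₀ • w 0 + z₀ • w 1)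
    (hn0 : c' (r (w 0)) = x₁ • w 0) (hn1 : c' (r (w 1)) = z₁ • w 1 + s₁ • w 0)
    (hcx : x₀ = aσ * z₀) (hcz : x₁ = aσ * z₁)
    (htr : LinearMap.trace k V c' = 0) : c' ∈ W0 w := by
  have e0 : x₀ • c' (w 0) = x₁ • w 0 := by rw [← hn0, hr0, map_smul]
  have e1 : s₀ • c' (w 0) + z₀ • c' (w 1) = z₁ • w 1 + s₁ • w 0 := by
    rw [← hn1, hr1, map_add, map_smul, map_smul]
  have a0 := congrArg (fun v => w.repr v 0) e0
  have a1 := congrArg (fun v => w.repr v 1) e0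
  have b1 := congrArg (fun v => w.repr v 1) e1
  simp only [map_smul, map_add, Finsupp.smul_apply, Finsupp.add_apply, smul_eq_mul,
    Fermat.Agent.S59.SO.repr_self_zero_zero, Fermat.Agent.S59.SO.repr_self_zero_one,
    Fermat.Agent.S59.SO.repr_self_one_one, mul_one, mul_zero, add_zero] at a0 a1 b1
  rw [soT1_trace_eq w] at htr
  have ht : w.repr (c' (w 0)) 1 = 0 := by
    rcases mul_eq_zero.mp a1 with h | h
    · exact absurd h hx0
    · exact h
  rw [ht, mul_zero, zero_add] at b1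
  have hd : w.repr (c' (w 0)) 0 = w.repr (c' (w 1)) 1 := by
    apply mul_left_cancel₀ hx0
    rw [a0, hcz, ← b1, hcx]
    ring
  have hd0 : w.repr (c' (w 0)) 0 = 0 := by
    have h3 : (2 : k) * w.repr (c' (w 0)) 0 = 0 := by
      rw [two_mul]
      nth_rewrite 2 [hd]
      exact htr
    rcases mul_eq_zero.mp h3 with h | h
    · exact absurd h h2
    · exact h
  refine ⟨?_, ?_⟩
  · rw [Fermat.Agent.S59.SO.eq_repr_smul_add w (c' (w 0)), ht, hd0, zero_smul, zero_smul, add_zero]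
  · rw [← hd, hd0]

end LinAlg

section Main

variable {k : Type} [Field k]

theorem soT1_natCast_eq_zero (p : ℕ) (hpk : (p : k) = 0) :
    ((p ^ 1 : ℕ) : DualNumber k) = 0 := by
  rw [pow_one]
  have h : ((p : ℕ) : DualNumber k) = algebraMap k (DualNumber k) (p : k) := by
    rw [map_natCast]
  rw [h, hpk, map_zero]

/-- **(T1)** a strict-ordinary tangent cocycle is, up to the coboundary of some `m ∈ ad⁰`,
`W0 w`-valued on the decomposition group of `P`. -/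
theorem so_tangent_normal_form_pf (p : ℕ) [Fact p.Prime] (hp2 : p ≠ 2)
    (hpk : (p : k) = 0) (ρbar : ResidualGaloisRep k)
    (P : ValuationSubring (AlgebraicClosure ℚ)) (hP : P.LiesOverPrime p)
    (w : Module.Basis (Fin 2) k ρbar.V) (hw : Fermat.Agent.S59.SO.SOTri ρbar.ρ p P w)
    (c : GQ → ad0 ρbar) (ρ : GaloisRepAdic (DualNumber k)) (hdef : IsDefOf ρbar c ρ)
    (hso : ρ.IsStrictOrdinaryAt p) :
    ∃ m : ad0 ρbar, ∀ σ ∈ P.decompositionSubgroup ℚ,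
      ((c σ + ((ad0 ρbar).ρ σ m - m) : ad0 ρbar) : ↥(ad0Sub ρbar)).1 ∈ W0 w := by
  classical
  obtain ⟨e, he⟩ := hdef
  obtain ⟨-, hso'⟩ := hso
  obtain ⟨L, ⟨b, rfl⟩, hD, hI, hC⟩ := hso' P hP
  have hp : p.Prime := Fact.out
  have hchar : CharP k p := (CharP.charP_iff_prime_eq_zero hp).mpr hpk
  have h2 : (2 : k) ≠ 0 := by
    intro h
    have h' : ((2 : ℕ) : k) = 0 := by exact_mod_cast h
    have := (CharP.cast_eq_zero_iff k p 2).mp h'
    exact hp2 ((Nat.prime_dvd_prime_iff_eq hp Nat.prime_two).mp this)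
  have hpA : ((p ^ 1 : ℕ) : DualNumber k) = 0 := soT1_natCast_eq_zero p hpk
  have hpk1 : ((p ^ 1 : ℕ) : k) = 0 := by rw [pow_one]; exact hpk
  -- the element `σ₀` of inertia
  obtain ⟨σ₀, hσ₀, hne⟩ := Fermat.Agent.MultRed.exists_inertia_cycExp_ne_one p hp2 P hP
  obtain ⟨a₀, ha₀⟩ := Fermat.Agent.S59.SOArith.exists_cycExp p σ₀ 1
  have hσ₀D := Fermat.Agent.S59.SO.inertia_le_decomposition hσ₀
  have hu : (a₀ : k) - 1 ≠ 0 := by
    intro h
    apply hne a₀ ha₀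
    have h' : (((a₀ : ℤ) - 1 : ℤ) : k) = 0 := by push_cast; exact h
    exact (CharP.intCast_eq_zero_iff k p _).mp h'
  have hρ0 : ρbar.ρ σ₀ (w 0) = (a₀ : k) • w 0 := by
    have h1 := (Fermat.Agent.S59.SO.cycRel_iff_of_pow_eq_zero (N := 1) hpk1 σ₀ ha₀ _ _).mp
      (hw.cyc σ₀ hσ₀D)
    rw [hw.inert σ₀ hσ₀, mul_one] at h1
    have h3 := Fermat.Agent.S59.SO.eq_smul_of_repr_one w (hw.dec σ₀ hσ₀D)
    rw [h1] at h3
    exact h3
  -- a generator of the line, and the vector `a`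
  set ℓ' : DualNumber k ⊗[k] ρbar.V :=
    defEnd ρbar (c σ₀ : ↥(ad0Sub ρbar)).1 σ₀ ((1 : DualNumber k) ⊗ₜ[k] w 0)
      - (1 : DualNumber k) ⊗ₜ[k] w 0 with hℓ'
  have hℓL : e ℓ' ∈ Submodule.span (DualNumber k) {b 0} := by
    have h1 := hI σ₀ hσ₀ (e ((1 : DualNumber k) ⊗ₜ[k] w 0))
    rw [he] at h1
    rw [hℓ', map_sub]
    exact h1
  have hℓ0 : redFst ℓ' = ((a₀ : k) - 1) • w 0 := by
    rw [hℓ', map_sub, redFst_defEnd, redFst_one_tmul, hρ0, sub_smul, one_smul]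
  obtain ⟨a, ha⟩ : ∃ a : ρbar.V, a = ((a₀ : k) - 1)⁻¹ • redSnd ℓ' := ⟨_, rfl⟩
  have hℓ1 : redSnd ℓ' = ((a₀ : k) - 1) • a := by
    rw [ha, smul_smul, mul_inv_cancel₀ hu, one_smul]
  have key : ∀ y : DualNumber k ⊗[k] ρbar.V, e y ∈ Submodule.span (DualNumber k) {b 0} →
      ∃ s₀ s₁ : k, redFst y = s₀ • w 0 ∧ redSnd y = s₀ • a + s₁ • w 0 := by
    obtain ⟨t, ht⟩ := Submodule.mem_span_singleton.mp hℓL
    have ht0 : TrivSqZeroExt.fst t ≠ 0 := by
      intro h0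
      have h1 : redFst ℓ' = 0 := by
        have h3 : ℓ' = t • e.symm (b 0) := by
          rw [← map_smul, ht, e.symm_apply_apply]
        rw [h3, redFst_smul, h0, zero_smul]
      rw [hℓ0] at h1
      exact (smul_ne_zero hu (w.ne_zero 0)) h1
    have htu : IsUnit t := by
      rw [TrivSqZeroExt.isUnit_iff_isUnit_fst]
      exact isUnit_iff_ne_zero.mpr ht0
    obtain ⟨t', ht'⟩ := htu.exists_left_inv
    intro y hy
    obtain ⟨s, hs⟩ := Submodule.mem_span_singleton.mp hy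
    have hy' : y = (s * t') • ℓ' := by
      apply e.injective
      rw [map_smul, ← ht, smul_smul, mul_assoc, ht', mul_one, hs]
    refine ⟨TrivSqZeroExt.fst (s * t') * ((a₀ : k) - 1),
      TrivSqZeroExt.snd (s * t') * ((a₀ : k) - 1), ?_, ?_⟩
    · rw [hy', redFst_smul, hℓ0, smul_smul]
    · rw [hy', redSnd_smul, hℓ0, hℓ1, smul_smul, smul_smul]
  -- the normalised generator
  obtain ⟨ℓ'', hℓ''⟩ : ∃ ℓ'' : DualNumber k ⊗[k] ρbar.V,
      ℓ'' = (TrivSqZeroExt.inl ((a₀ : k) - 1)⁻¹ : DualNumber k) • ℓ' := ⟨_, rfl⟩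
  have hℓ''L : e ℓ'' ∈ Submodule.span (DualNumber k) {b 0} := by
    rw [hℓ'', map_smul]
    exact Submodule.smul_mem _ _ hℓL
  have hℓ''0 : redFst ℓ'' = w 0 := by
    rw [hℓ'', redFst_smul, TrivSqZeroExt.fst_inl, hℓ0, smul_smul, inv_mul_cancel₀ hu, one_smul]
  have hℓ''1 : redSnd ℓ'' = a := by
    rw [hℓ'', redSnd_smul, TrivSqZeroExt.fst_inl, TrivSqZeroExt.snd_inl, zero_smul, add_zero, ha]
  -- the endomorphism `m`
  obtain ⟨m₁, hm10, hm11⟩ : ∃ m₁ : Module.End k ρbar.V, m₁ (w 0) = a ∧ m₁ (w 1) = 0 := by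
    refine ⟨w.constr k ![a, 0], ?_, ?_⟩
    · rw [Module.Basis.constr_basis]; rfl
    · rw [Module.Basis.constr_basis]; rfl
  obtain ⟨τ, hτ⟩ : ∃ τ : k, τ = LinearMap.trace k ρbar.V m₁ / 2 := ⟨_, rfl⟩
  have hm₀tr : LinearMap.trace k ρbar.V (m₁ - τ • (1 : Module.End k ρbar.V)) = 0 := by
    rw [map_sub, map_smul, LinearMap.trace_one, ρbar.finrank_eq, hτ, smul_eq_mul]
    push_cast
    field_simp
    ring
  obtain ⟨m, hm⟩ : ∃ m : ad0 ρbar,
      (m : ↥(ad0Sub ρbar)).1 = m₁ - τ • (1 : Module.End k ρbar.V) :=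
    ⟨(⟨m₁ - τ • (1 : Module.End k ρbar.V), LinearMap.mem_ker.mpr hm₀tr⟩ : ↥(ad0Sub ρbar)), rfl⟩
  refine ⟨m, fun σ hσ => ?_⟩
  obtain ⟨x, z, hx, hz, hcyc⟩ := hC σ hσ
  obtain ⟨aσ, haσ⟩ := Fermat.Agent.S59.SOArith.exists_cycExp p σ 1
  have hxz : x = (aσ : DualNumber k) * z := by
    have h1 := hcyc 1 aσ haσ
    rw [hpA, Ideal.span_singleton_zero, Ideal.mem_bot, sub_eq_zero] at h1
    exact h1
  have hcx : TrivSqZeroExt.fst x = (aσ : k) * TrivSqZeroExt.fst z := by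
    rw [hxz, TrivSqZeroExt.fst_mul, TrivSqZeroExt.fst_natCast]
  have hcz : TrivSqZeroExt.snd x = (aσ : k) * TrivSqZeroExt.snd z := by
    rw [hxz, TrivSqZeroExt.snd_mul, TrivSqZeroExt.fst_natCast, TrivSqZeroExt.snd_natCast]
    simp
  -- the line
  obtain ⟨cσ, hcσ⟩ : ∃ cσ : Module.End k ρbar.V, cσ = (c σ : ↥(ad0Sub ρbar)).1 := ⟨_, rfl⟩
  have heσ : ∀ u : DualNumber k ⊗[k] ρbar.V, ρ.ρ σ (e u) = e (defEnd ρbar cσ σ u) := by
    intro u
    rw [hcσ]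
    exact he σ u
  have h1 : defEnd ρbar cσ σ ℓ'' = x • ℓ'' := by
    have h3 := hx _ hℓ''L
    rw [heσ, ← map_smul] at h3
    exact e.injective h3
  have hr0 : ρbar.ρ σ (w 0) = TrivSqZeroExt.fst x • w 0 := by
    have f0 := congrArg redFst h1
    rw [redFst_defEnd, redFst_smul, hℓ''0] at f0
    exact f0
  have f1 : ρbar.ρ σ a + cσ (ρbar.ρ σ (w 0))
      = TrivSqZeroExt.fst x • a + TrivSqZeroExt.snd x • w 0 := by
    have f1 := congrArg redSnd h1
    rw [redSnd_defEnd, redSnd_smul, hℓ''0, hℓ''1] at f1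
    exact f1
  -- the quotient
  have h3 : e (defEnd ρbar cσ σ ((1 : DualNumber k) ⊗ₜ[k] w 1)
      - z • ((1 : DualNumber k) ⊗ₜ[k] w 1)) ∈ Submodule.span (DualNumber k) {b 0} := by
    have h4 := hz (e ((1 : DualNumber k) ⊗ₜ[k] w 1))
    rw [heσ, ← map_smul, ← map_sub] at h4
    exact h4
  obtain ⟨s₀, s₁, k0, k1⟩ := key _ h3
  rw [map_sub, redFst_defEnd, redFst_smul, redFst_one_tmul] at k0
  rw [map_sub, redSnd_defEnd, redSnd_smul, redSnd_one_tmul, redFst_one_tmul, map_zero, zero_add,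
    smul_zero, zero_add] at k1
  have hr1 : ρbar.ρ σ (w 1) = s₀ • w 0 + TrivSqZeroExt.fst z • w 1 := by
    rw [← k0]; abel
  -- `ρbar σ` is invertible
  have hinv : ∀ v : ρbar.V, ρbar.ρ σ⁻¹ (ρbar.ρ σ v) = v := by
    intro v
    have h5 : ρbar.ρ σ⁻¹ * ρbar.ρ σ = 1 := by rw [← map_mul, inv_mul_cancel, map_one]
    exact LinearMap.congr_fun h5 v
  have hx0 : TrivSqZeroExt.fst x ≠ 0 := by
    intro h0
    rw [h0, zero_smul] at hr0
    have h5 := hinv (w 0)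
    rw [hr0, map_zero] at h5
    exact w.ne_zero 0 h5.symm
  -- the value of the new cocycle
  obtain ⟨c', hc'⟩ : ∃ c' : Module.End k ρbar.V,
      c' = ((c σ + ((ad0 ρbar).ρ σ m - m) : ad0 ρbar) : ↥(ad0Sub ρbar)).1 := ⟨_, rfl⟩
  have hval : ∀ v : ρbar.V,
      c' (ρbar.ρ σ v) = cσ (ρbar.ρ σ v) + ρbar.ρ σ (m₁ v) - m₁ (ρbar.ρ σ v) := by
    intro v
    have h5 : c' = cσ + (ρbar.ρ σ * ((m : ↥(ad0Sub ρbar)).1
            * ρbar.ρ σ⁻¹) - (m : ↥(ad0Sub ρbar)).1) := by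
      rw [hc', hcσ]
      rfl
    rw [h5, hm]
    simp only [LinearMap.add_apply, LinearMap.sub_apply, Module.End.mul_apply,
      LinearMap.smul_apply, Module.End.one_apply, hinv, map_sub, map_smul]
    abel
  have htr : LinearMap.trace k ρbar.V c' = 0 := by
    rw [hc']
    exact LinearMap.mem_ker.mp
      ((c σ + ((ad0 ρbar).ρ σ m - m) : ad0 ρbar) : ↥(ad0Sub ρbar)).2
  rw [← hc']
  refine soT1_mem_W0 w h2 c' (ρbar.ρ σ) (TrivSqZeroExt.fst x) (TrivSqZeroExt.snd x)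
    (TrivSqZeroExt.fst z) (TrivSqZeroExt.snd z) s₀ s₁ (aσ : k) hx0 hr0 hr1 ?_ ?_ hcx hcz htr
  · have e3 : m₁ (ρbar.ρ σ (w 0)) = TrivSqZeroExt.fst x • a := by
      rw [hr0, map_smul, hm10]
    have e4 : cσ (ρbar.ρ σ (w 0)) + ρbar.ρ σ a
        = TrivSqZeroExt.fst x • a + TrivSqZeroExt.snd x • w 0 := by
      rw [add_comm]; exact f1
    rw [hval, hm10, e3, e4]
    abel
  · have e3 : m₁ (ρbar.ρ σ (w 1)) = s₀ • a := by
      rw [hr1, map_add, map_smul, map_smul, hm10, hm11, smul_zero, add_zero]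
    have e4 : cσ (ρbar.ρ σ (w 1)) = s₀ • a + s₁ • w 0 + TrivSqZeroExt.snd z • w 1 := by
      rw [← k1]; abel
    rw [hval, hm11, map_zero, add_zero, e3, e4]
    abel

end Main

end Fermat.Agent.S56.SO
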